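-- lead QA log: 2026-09-26T17:08:12Z, 40 statement files on main
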